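import Fermat.Agent.AV.Interface

/-!
# The torsion of an abelian scheme from the targets
-/

set_option autoImplicit false

noncomputable section

namespace FLTAgent.AV

open CategoryTheory AlgebraicGeometry NeronModelInfra GoodReductionJacobian

universe u

/-- The number of torsion points of an abelian scheme over an algebraically closed field. -/
theorem natCard_torsion_of (hS : TargetScheme.{u}) (hC : TargetCube.{u} → TargetCount.{u})
    (hQ : TargetCube.{u}) (K : Type u) [Field K] [IsAlgClosed K] {A : Scheme.{u}}
    (f : A ⟶ Spec (CommRingCat.of K)) (L : RelativeGroupLaw K f) (hc : L.IsCommutative)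
    (hA : AbelianSchemePropertyBundle K f) (g : ℕ) [SmoothOfRelativeDimension g f] (n : ℕ)
    (hn : (n : K) ≠ 0) :
    Nat.card {x : SchemeHomOver (𝟙 (Spec (CommRingCat.of K))) f //
      L.IsTorsionPoint (𝟙 (Spec (CommRingCat.of K))) n x} = n ^ (2 * g) := by
  obtain ⟨V, G, hV⟩ := hS f L hc hA g
  rw [← hV n]
  exact hC hQ G n hn

end FLTAgent.AV
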