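import Fermat.Agent.Jac27.Spread.Constants
import Fermat.Prelude.Def_JacJ1Iface
import Fermat.Prelude.Def_GoodReductionJacobian_RelativeGroupLawKernel

/-!
# Abelian varieties by their points: interface

An abelian variety is recorded by its function field, its local rings inside it, the group law on
points with values in fields, specialisation along valuation rings, and the logarithmic derivative
of points. The number of torsion points is computed from these data alone.
-/

set_option autoImplicit false

noncomputable section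

namespace FLTAgent.AV

universe u

/-- The function field of a variety of dimension `g` with the local rings of its points. -/
structure Space (K : Type u) [Field K] (g : ℕ) where
  N : Type u
  [instField : Field N]
  [instAlgebra : Algebra K N]
  Q : Type u
  gen : Q
  O : Q → Subalgebra K N
  O_gen : O gen = ⊤
  isLocalRing : ∀ q, IsLocalRing (O q)
  exists_frac : ∀ q (x : N), ∃ a ∈ O q, ∃ b ∈ O q, b ≠ 0 ∧ x = a / b
  essFiniteType : Algebra.EssFiniteType K N
  trdeg_eq : Algebra.trdeg K N = g
  /-- `Spz q q'`: the point `q'` is a specialisation of `q`. -/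
  Spz : Q → Q → Prop
  spz_refl : ∀ a, Spz a a
  spz_trans : ∀ {a b c}, Spz a b → Spz b c → Spz a c
  spz_le : ∀ {a b}, Spz a b → O b ≤ O a
  /-- The local ring of a generalisation is a localisation. -/
  spz_frac : ∀ {a b}, Spz a b → ∀ x ∈ O a, ∃ c ∈ O b, ∃ d ∈ O b, d ≠ 0 ∧ d⁻¹ ∈ O a ∧ x = c / d

attribute [instance] Space.instField Space.instAlgebra

variable {K : Type u} [Field K] {g : ℕ}

namespace Space

variable (V : Space K g)

/-- A point with values in a field. -/
@[ext]
structure Pt (L : Type u) [Field L] [Algebra K L] where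
  q : V.Q
  φ : V.O q →ₐ[K] L
  isUnit_of_ne_zero : ∀ a, φ a ≠ 0 → IsUnit a

variable {V} {L L' : Type u} [Field L] [Algebra K L] [Field L'] [Algebra K L']

/-- The image of a point under an extension of fields. -/
def Pt.map (σ : L →ₐ[K] L') (p : V.Pt L) : V.Pt L' where
  q := p.q
  φ := σ.comp p.φ
  isUnit_of_ne_zero a h := p.isUnit_of_ne_zero a fun h0 => h (by
    rw [AlgHom.comp_apply, h0, map_zero])

/-- The field generated by a point. -/
def Pt.field (p : V.Pt L) : IntermediateField K L := IntermediateField.adjoin K (Set.range p.φ)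

/-- The transcendence degree over `K` of a point is at least `m`. -/
def Pt.DimGE (p : V.Pt L) (m : ℕ) : Prop := (m : Cardinal) ≤ Algebra.trdeg K p.field

/-- The point is generic over the intermediate field `E`. -/
def Pt.GenericOver (p : V.Pt L) (E : IntermediateField K L) : Prop :=
  (g : Cardinal) ≤ Algebra.trdeg E (IntermediateField.adjoin E (Set.range p.φ))

/-- The generic point. -/
def genPt : V.Pt V.N where
  q := V.gen
  φ := (V.O V.gen).val
  isUnit_of_ne_zero a h := by
    have hb : (a : V.N)⁻¹ ∈ V.O V.gen := (SetLike.ext_iff.1 V.O_gen _).2 Algebra.mem_top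
    exact IsUnit.of_mul_eq_one ⟨_, hb⟩ (Subtype.ext (mul_inv_cancel₀ h))

/-- The value of a rational function at a point, zero if it is not regular there. -/
def Pt.eval (p : V.Pt L) (h : V.N) : L := by
  classical exact if hh : h ∈ V.O p.q then p.φ ⟨h, hh⟩ else 0

/-- `p'` is the specialisation of `p` along `π`. -/
def IsSpec {A : ValuationSubring L} (π : A →+* L') (p : V.Pt L) (p' : V.Pt L') : Prop :=
  ∃ hs : V.Spz p.q p'.q, ∀ a : V.O p'.q,
    ∃ h : p.φ (Subalgebra.inclusion (V.spz_le hs) a) ∈ A, π ⟨_, h⟩ = p'.φ a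

end Space

/-- A residue map compatible with the constants. -/
def Residual {L k : Type u} [Field L] [Algebra K L] [Field k] [Algebra K k]
    (A : ValuationSubring L) (π : A →+* k) : Prop :=
  IsLocalHom π ∧ ∀ c : K, ∃ h : algebraMap K L c ∈ A, π ⟨_, h⟩ = algebraMap K k c

/-- The structure of an abelian variety on a space of points. -/
structure Law (V : Space K g) where
  group : ∀ (L : Type u) [Field L] [Algebra K L], AddCommGroup (V.Pt L)
  map_add : ∀ {L L' : Type u} [Field L] [Algebra K L] [Field L'] [Algebra K L']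
    (σ : L →ₐ[K] L') (p q : V.Pt L),
    letI := group L; letI := group L'
    (p + q).map σ = p.map σ + q.map σ
  exists_spec : ∀ {L k : Type u} [Field L] [Algebra K L] [Field k] [Algebra K k]
    {A : ValuationSubring L} (π : A →+* k), Residual (K := K) A π → ∀ p : V.Pt L,
      ∃! p' : V.Pt k, Space.IsSpec π p p'
  spec_add : ∀ {L k : Type u} [Field L] [Algebra K L] [Field k] [Algebra K k]
    {A : ValuationSubring L} (π : A →+* k) {p q : V.Pt L} {p' q' : V.Pt k},
    letI := group L; letI := group k
    Residual (K := K) A π → Space.IsSpec π p p' → Space.IsSpec π q q' →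
      Space.IsSpec π (p + q) (p' + q')
  q_eq_gen : ∀ {L : Type u} [Field L] [Algebra K L] (p : V.Pt L), p.DimGE g → p.q = V.gen
  ufd : ∀ {L : Type u} [Field L] [Algebra K L] (p : V.Pt L) (m : ℕ), g ≤ m + 2 → p.DimGE m →
    UniqueFactorizationMonoid (V.O p.q)
  /-- Local rings of points of codimension at most one are valuation rings. -/
  val_or : ∀ {L : Type u} [Field L] [Algebra K L] (p : V.Pt L) (m : ℕ), g ≤ m + 1 → p.DimGE m →
    ∀ h : V.N, h ∈ V.O p.q ∨ h⁻¹ ∈ V.O p.q
  /-- The logarithmic derivative of points along a derivation of their field. -/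
  dlog : ∀ (L : Type u) [Field L] [Algebra K L],
    letI := group L
    Derivation K L L → V.Pt L →+ (Fin g → L)
  dlog_eq_zero : ∀ {L : Type u} [Field L] [Algebra K L] (D : Derivation K L L) (p : V.Pt L),
    letI := group L
    dlog L D p = 0 ↔ ∀ a, D (p.φ a) = 0
  /-- The gradient of a rational function in an invariant frame. -/
  grad : V.N → Fin g → V.N
  grad_spec : ∀ {L : Type u} [Field L] [Algebra K L] (D : Derivation K L L) (p : V.Pt L) (h : V.N),
    letI := group L
    p.q = V.gen → D (p.eval h) = ∑ i, p.eval (grad h i) * dlog L D p i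

variable {V : Space K g}

/-- The degree of `h` along the translate by `η` of the multiple `a` of a point of a curve. -/
def Law.slotDegree (G : Law V) {Ω F : Type u} [Field Ω] [Algebra K Ω] [Field F] [Algebra K F]
    [Algebra Ω F] [IsScalarTower K Ω F] [IsAlgClosed Ω] [FLTAgent.Curves.IsFunctionField Ω F]
    (h : V.N) (η : V.Pt Ω) (φ : V.Pt F) (a : ℤ) : ℤ :=
  letI := G.group F
  AlgebraicCurve.Divisor.degree
    (FLTAgent.Curves.poleDiv Ω ((a • φ + η.map (IsScalarTower.toAlgHom K Ω F)).eval h))

open FLTAgent.Curves FLTAgent.Jac27.Spread in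
/-- The degree along a translate is quadratic in the multiplier. -/
def TargetCube : Prop :=
  ∀ {K : Type u} [Field K] [IsAlgClosed K] {g : ℕ} {V : Space K g} (G : Law V)
    {Ω₀ Ω F₀ F : Type u} [Field Ω₀] [Field Ω] [Field F₀] [Field F] [Algebra K Ω₀] [Algebra K Ω]
    [Algebra K F₀] [Algebra K F] [Algebra Ω₀ Ω] [Algebra Ω₀ F₀] [Algebra Ω F] [Algebra Ω₀ F]
    [IsScalarTower K Ω₀ Ω] [IsScalarTower K Ω₀ F₀] [IsScalarTower K Ω F] [IsScalarTower K Ω₀ F]
    [IsScalarTower Ω₀ Ω F] [IsAlgClosed Ω₀] [IsAlgClosed Ω] [IsFunctionField Ω₀ F₀]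
    [IsFunctionField Ω F] (ι : F₀ →ₐ[Ω₀] F) (_ : ConstExt (K := Ω) ι) (φ : V.Pt F₀) (η : V.Pt Ω)
    (_ : η.GenericOver (IsScalarTower.toAlgHom K Ω₀ Ω).fieldRange) (h : V.N) (n : ℕ),
    G.slotDegree h η (φ.map (ι.restrictScalars K)) n +
      G.slotDegree h η (φ.map (ι.restrictScalars K)) (-n) =
    (n : ℤ) ^ 2 * (G.slotDegree h η (φ.map (ι.restrictScalars K)) 1 +
      G.slotDegree h η (φ.map (ι.restrictScalars K)) (-1))

/-- The number of torsion points from the abstract data. -/
def TargetCount : Prop :=
  ∀ {K : Type u} [Field K] [IsAlgClosed K] {g : ℕ} {V : Space K g} (G : Law V) (n : ℕ),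
    (n : K) ≠ 0 →
      letI := G.group K
      Nat.card {p : V.Pt K // n • p = 0} = n ^ (2 * g)

open CategoryTheory AlgebraicGeometry NeronModelInfra GoodReductionJacobian in
/-- An abelian scheme over an algebraically closed field yields these data. -/
def TargetScheme : Prop :=
  ∀ {K : Type u} [Field K] [IsAlgClosed K] {A : Scheme.{u}} (f : A ⟶ Spec (CommRingCat.of K))
    (L : RelativeGroupLaw K f), L.IsCommutative → AbelianSchemePropertyBundle K f →
    ∀ (g : ℕ) [SmoothOfRelativeDimension g f], ∃ (V : Space K g) (G : Law V),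
      letI := G.group K
      ∀ n : ℕ, Nat.card {p : V.Pt K // n • p = 0} =
        Nat.card {x : SchemeHomOver (𝟙 (Spec (CommRingCat.of K))) f //
          L.IsTorsionPoint (𝟙 (Spec (CommRingCat.of K))) n x}

end FLTAgent.AV
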