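import Mathlib

/-!
# Parameters at primes of small height

At a prime of a polynomial ring which meets all but two of the variables trivially the maximal
ideal has two generators forming a regular sequence; a flat unramified algebra inherits them, so
its local ring there is factorial.
-/

set_option autoImplicit false
set_option linter.style.haveILetI false
set_option linter.unusedSectionVars false

noncomputable section

universe u v

open Polynomial

namespace FLTAgent.AV.Param

variable {R : Type u} [CommRing R]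

/-- The element lies in the ideal at the prime. -/
def LocMem (p : Ideal R) (I : Ideal R) (x : R) : Prop := ∃ s, s ∉ p ∧ s * x ∈ I

/-- The prime is principal at itself. -/
def Principal (p : Ideal R) (a : R) : Prop := a ∈ p ∧ ∀ x ∈ p, LocMem p (Ideal.span {a}) x

/-- Two parameters at the prime. -/
def Pair (p : Ideal R) : Prop :=
  ∃ a b : R, a ∈ p ∧ b ∈ p ∧ (∀ x ∈ p, LocMem p (Ideal.span {a, b}) x) ∧
    (LocMem p (Ideal.span {a}) b ∨
      ∀ y, LocMem p (Ideal.span {a}) (b * y) → LocMem p (Ideal.span {a}) y)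

theorem pair_of_principal {p : Ideal R} [p.IsPrime] {a : R} (h : Principal p a) : Pair p := by
  refine ⟨a, a, h.1, h.1, fun x hx => ?_, Or.inl ⟨1, (Ideal.ne_top_iff_one p).1 ‹p.IsPrime›.ne_top,
    by rw [one_mul]; exact Ideal.mem_span_singleton_self a⟩⟩
  rw [Set.pair_eq_singleton]
  exact h.2 x hx

theorem principal_bot [IsDomain R] : Principal (⊥ : Ideal R) 0 :=
  ⟨zero_mem _, fun x hx => ⟨1, one_ne_zero, by
    rw [Ideal.mem_bot.1 hx, mul_zero]; exact zero_mem _⟩⟩

theorem pair_of_equiv {R' : Type v} [CommRing R'] (e : R ≃+* R') {p : Ideal R'}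
    (h : Pair p) : Pair (p.comap e.toRingHom) := by
  have hloc : ∀ (T : Set R') (x : R'), LocMem p (Ideal.span T) x →
      LocMem (p.comap e.toRingHom) (Ideal.span (e.symm '' T)) (e.symm x) := by
    rintro T x ⟨s, hs, hx⟩
    refine ⟨e.symm s, fun h => hs ?_, ?_⟩
    · simpa using (Ideal.mem_comap.1 h)
    · rw [← map_mul]
      have := Ideal.mem_map_of_mem e.symm.toRingHom hx
      rwa [Ideal.map_span] at this
  obtain ⟨a, b, ha, hb, hgen, hreg⟩ := h
  refine ⟨e.symm a, e.symm b, Ideal.mem_comap.2 (by rwa [RingEquiv.toRingHom_eq_coe,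
    RingEquiv.coe_toRingHom, e.apply_symm_apply]), Ideal.mem_comap.2 (by rwa [RingEquiv.toRingHom_eq_coe,
    RingEquiv.coe_toRingHom, e.apply_symm_apply]), fun x hx => ?_, ?_⟩
  · have h1 := hloc _ _ (hgen (e x) hx)
    rwa [Set.image_pair, e.symm_apply_apply] at h1
  rcases hreg with h1 | h1
  · left
    have h2 := hloc _ _ h1
    rwa [Set.image_singleton] at h2
  · right
    rintro y ⟨s, hs, hy⟩
    have h2 : LocMem p (Ideal.span {a}) (b * e y) := by
      refine ⟨e s, hs, ?_⟩
      have := Ideal.mem_map_of_mem e.toRingHom hy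
      rw [Ideal.map_span, Set.image_singleton] at this
      simpa using this
    have h3 := hloc _ _ (h1 _ h2)
    rwa [Set.image_singleton, e.symm_apply_apply] at h3

/-! ### One more variable -/

section Step

variable {B : Type u} [CommRing B] [IsNoetherianRing B]

theorem exists_mul_mem_C {p₀ : Ideal B} [p₀.IsPrime] {a : B} (h : Principal p₀ a) {f : B[X]}
    (hf : ∀ n, f.coeff n ∈ p₀) : ∃ s, s ∉ p₀ ∧ C s * f ∈ Ideal.span ({C a} : Set B[X]) := by
  choose s hs hmem using fun n => h.2 _ (hf n)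
  refine ⟨∏ n ∈ f.support, s n, fun hp => ?_, ?_⟩
  · obtain ⟨n, -, hn⟩ := (‹p₀.IsPrime›.prod_mem_iff (x := s)).1 hp
    exact hs n hn
  · rw [Ideal.mem_span_singleton, C_dvd_iff_dvd_coeff]
    intro n
    rw [coeff_C_mul]
    by_cases hn : n ∈ f.support
    · exact (Ideal.mem_span_singleton.1 (hmem n)).trans
        (mul_dvd_mul_right (Finset.dvd_prod_of_mem s hn) _)
    · rw [notMem_support_iff.1 hn, mul_zero]
      exact dvd_zero a

theorem pair_polynomial (p : Ideal B[X]) [p.IsPrime] {a : B}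
    (h : Principal (p.comap (C : B →+* B[X])) a) :
    ∃ b, C a ∈ p ∧ b ∈ p ∧ (∀ x ∈ p, LocMem p (Ideal.span {C a, b}) x) ∧
      (LocMem p (Ideal.span {C a}) b ∨
        ∀ y, LocMem p (Ideal.span {C a}) (b * y) → LocMem p (Ideal.span {C a}) y) := by
  classical
  set p₀ := p.comap (C : B →+* B[X])
  haveI : p₀.IsPrime := Ideal.IsPrime.comap _
  let k := FractionRing (B ⧸ p₀)
  let ι : B →+* k := (algebraMap (B ⧸ p₀) k).comp (Ideal.Quotient.mk p₀)
  have hι : ∀ x, ι x = 0 ↔ x ∈ p₀ := fun x => by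
    rw [RingHom.comp_apply, map_eq_zero_iff _ (IsFractionRing.injective (B ⧸ p₀) k),
      Ideal.Quotient.eq_zero_iff_mem]
  let φ : B[X] →+* k[X] := mapRingHom ι
  have hφ : ∀ f, φ f = 0 ↔ ∀ n, f.coeff n ∈ p₀ := fun f => by
    rw [coe_mapRingHom, Polynomial.ext_iff]
    simp only [coeff_map, coeff_zero, hι]
  have hφC : ∀ s, φ (C s) = C (ι s) := fun s => map_C ι
  have hden : ∀ g : k[X], ∃ s, s ∉ p₀ ∧ ∃ f, φ f = C (ι s) * g := by
    intro g
    obtain ⟨⟨d, hd⟩, hd'⟩ :=
      IsLocalization.exist_integer_multiples_of_finset (nonZeroDivisors (B ⧸ p₀))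
        (g.support.image g.coeff)
    obtain ⟨s, rfl⟩ := Ideal.Quotient.mk_surjective d
    have hs : s ∉ p₀ := fun hs =>
      nonZeroDivisors.ne_zero hd (Ideal.Quotient.eq_zero_iff_mem.2 hs)
    have hcoeff : ∀ n, ∃ c, ι c = ι s * g.coeff n := fun n => by
      by_cases hn : n ∈ g.support
      · obtain ⟨c, hc⟩ := hd' _ (Finset.mem_image_of_mem g.coeff hn)
        obtain ⟨c', rfl⟩ := Ideal.Quotient.mk_surjective c
        refine ⟨c', hc.trans ?_⟩
        rw [Algebra.smul_def]
        rfl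
      · exact ⟨0, by rw [notMem_support_iff.1 hn, mul_zero, map_zero]⟩
    choose c hc using hcoeff
    refine ⟨s, hs, ∑ n ∈ g.support, monomial n (c n), Polynomial.ext fun m => ?_⟩
    rw [coe_mapRingHom, coeff_map, coeff_C_mul, finsetSum_coeff]
    simp only [coeff_monomial, Finset.sum_ite_eq']
    split_ifs with hm
    · exact hc m
    · rw [map_zero, notMem_support_iff.1 hm, mul_zero]
  obtain ⟨c, hc⟩ : ∃ c, p.map φ = Ideal.span {c} :=
    ⟨_, (Submodule.IsPrincipal.span_singleton_generator (p.map φ)).symm⟩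
  -- clearing denominators for the elements of the extended ideal
  have hmem : ∀ x ∈ p.map φ, ∃ s, s ∉ p₀ ∧ ∃ f ∈ p, φ f = C (ι s) * x := by
    intro x hx
    induction hx using Submodule.span_induction with
    | mem x hx =>
      obtain ⟨f, hf, rfl⟩ := hx
      exact ⟨1, (Ideal.ne_top_iff_one p₀).1 ‹p₀.IsPrime›.ne_top, f, hf,
        by rw [map_one, C_1, one_mul]⟩
    | zero =>
      exact ⟨1, (Ideal.ne_top_iff_one p₀).1 ‹p₀.IsPrime›.ne_top, 0, zero_mem _,
        by rw [map_zero, mul_zero]⟩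
    | add x y _ _ hx hy =>
      obtain ⟨s, hs, f, hf, hfx⟩ := hx
      obtain ⟨t, ht, g, hg, hgy⟩ := hy
      refine ⟨s * t, fun h => (‹p₀.IsPrime›.mem_or_mem h).elim hs ht, C t * f + C s * g,
        add_mem (p.mul_mem_left _ hf) (p.mul_mem_left _ hg), ?_⟩
      rw [map_add, map_mul, map_mul, hfx, hgy, hφC, hφC, map_mul, C_mul]
      ring
    | smul r x _ hx =>
      obtain ⟨s, hs, f, hf, hfx⟩ := hx
      obtain ⟨t, ht, g, hg⟩ := hden r
      refine ⟨s * t, fun h => (‹p₀.IsPrime›.mem_or_mem h).elim hs ht, g * f, p.mul_mem_left _ hf, ?_⟩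
      rw [map_mul, hg, hfx, map_mul ι, C_mul, smul_eq_mul]
      ring
  obtain ⟨s₀, hs₀, b, hb, hbc⟩ := hmem c (hc ▸ Ideal.mem_span_singleton_self c)
  have hCp : ∀ s, s ∉ p₀ → C s ∉ p := fun s hs h => hs h
  refine ⟨b, h.1, hb, fun x hx => ?_, ?_⟩
  · have h1 : φ x ∈ Ideal.span ({c} : Set k[X]) := hc ▸ Ideal.mem_map_of_mem φ hx
    obtain ⟨r, hr⟩ := Ideal.mem_span_singleton'.1 h1
    obtain ⟨t, ht, g, hg⟩ := hden r
    have h2 : φ (C s₀ * C t * x - g * b) = 0 := by
      rw [map_sub, map_mul, map_mul, map_mul, hφC, hφC, hg, hbc, ← hr]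
      ring
    obtain ⟨s, hs, hsx⟩ := exists_mul_mem_C h ((hφ _).1 h2)
    refine ⟨C s * (C s₀ * C t), fun hh => ?_, ?_⟩
    · rcases ‹p.IsPrime›.mem_or_mem hh with h3 | h3
      · exact hCp s hs h3
      · exact (‹p.IsPrime›.mem_or_mem h3).elim (hCp _ hs₀) (hCp _ ht)
    · have h4 : C s * (C s₀ * C t) * x = C s * (C s₀ * C t * x - g * b) + C s * g * b := by ring
      rw [h4]
      exact add_mem (Ideal.span_mono (by simp) hsx)
        (Ideal.mul_mem_left _ _ (Ideal.subset_span (by simp)))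
  by_cases hb0 : φ b = 0
  · left
    obtain ⟨s, hs, hsb⟩ := exists_mul_mem_C h ((hφ _).1 hb0)
    exact ⟨C s, hCp s hs, hsb⟩
  · right
    rintro y ⟨s, hs, hy⟩
    obtain ⟨z, hz⟩ := Ideal.mem_span_singleton'.1 hy
    have hs0 : φ s ≠ 0 := fun h0 => hs (by
      obtain ⟨t, ht, htx⟩ := exists_mul_mem_C h ((hφ _).1 h0)
      exact (‹p.IsPrime›.mem_or_mem ((Ideal.span_singleton_le_iff_mem p).2 h.1 htx)).resolve_left
        (hCp t ht))
    have h5 : φ s * (φ b * φ y) = 0 := by
      rw [← map_mul, ← map_mul, ← hz, map_mul, hφC, (hι a).2 h.1, map_zero, mul_zero]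
    have h6 : φ y = 0 :=
      (mul_eq_zero.1 ((mul_eq_zero.1 h5).resolve_left hs0)).resolve_left hb0
    obtain ⟨t, ht, hty⟩ := exists_mul_mem_C h ((hφ _).1 h6)
    exact ⟨C t, hCp t ht, hty⟩

theorem pair_polynomial' (p : Ideal B[X]) [p.IsPrime] {a : B}
    (h : Principal (p.comap (C : B →+* B[X])) a) : Pair p := by
  obtain ⟨b, hb⟩ := pair_polynomial p h
  exact ⟨C a, b, hb⟩

theorem principal_polynomial [IsDomain B] (p : Ideal B[X]) [p.IsPrime]
    (h : p.comap (C : B →+* B[X]) = ⊥) : ∃ b, Principal p b := by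
  obtain ⟨b, -, hb, hgen, -⟩ := pair_polynomial p (a := 0) (h.symm ▸ principal_bot)
  refine ⟨b, hb, fun x hx => ?_⟩
  obtain ⟨s, hs, hsx⟩ := hgen x hx
  refine ⟨s, hs, ?_⟩
  rwa [map_zero, Ideal.span_insert_zero] at hsx

theorem pair_polynomial₂ {C₀ : Type u} [CommRing C₀] [IsDomain C₀] [IsNoetherianRing C₀]
    (p : Ideal C₀[X][X]) [p.IsPrime]
    (h : p.comap ((C : C₀[X] →+* C₀[X][X]).comp (C : C₀ →+* C₀[X])) = ⊥) : Pair p := by
  haveI : (p.comap (C : C₀[X] →+* C₀[X][X])).IsPrime := Ideal.IsPrime.comap _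
  obtain ⟨a, ha⟩ := principal_polynomial (p.comap (C : C₀[X] →+* C₀[X][X]))
    (by rwa [Ideal.comap_comap])
  exact pair_polynomial' p ha

end Step

/-! ### Factoriality -/

section Factorial

variable {O : Type u} [CommRing O] [IsDomain O] [IsLocalRing O] [IsNoetherianRing O]

theorem isPrincipal_of_maximalIdeal {b : O} (h : IsLocalRing.maximalIdeal O = Ideal.span {b}) :
    IsPrincipalIdealRing O :=
  ((tfae_of_isNoetherianRing_of_isLocalRing_of_isDomain O).out 4 0).1
    (⟨⟨b, h⟩⟩ : (IsLocalRing.maximalIdeal O).IsPrincipal)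

theorem ufd_of_pair {a b : O} (hm : IsLocalRing.maximalIdeal O = Ideal.span {a, b})
    (hreg : b ∈ Ideal.span ({a} : Set O) ∨ ∀ y, a ∣ b * y → a ∣ y) :
    UniqueFactorizationMonoid O := by
  by_cases hprinc : ∃ c, IsLocalRing.maximalIdeal O = Ideal.span {c}
  · obtain ⟨c, hc⟩ := hprinc
    haveI := isPrincipal_of_maximalIdeal hc
    infer_instance
  rcases hreg with hba | hreg
  · refine absurd ⟨a, hm.trans (le_antisymm ?_ (Ideal.span_mono (by simp)))⟩ hprinc
    rw [Ideal.span_le]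
    rintro x (rfl | hx)
    · exact Ideal.mem_span_singleton_self x
    · rw [Set.mem_singleton_iff.1 hx]; exact hba
  have ha0 : a ≠ 0 := fun h => hprinc ⟨b, by rw [hm, h, Ideal.span_insert_zero]⟩
  set A := Ideal.span ({a} : Set O) with hA
  have hbm : b ∈ IsLocalRing.maximalIdeal O := hm ▸ Ideal.subset_span (by simp)
  have ham : a ∈ IsLocalRing.maximalIdeal O := hm ▸ Ideal.subset_span (by simp)
  have hA1 : A ≠ ⊤ := fun h =>
    (IsLocalRing.maximalIdeal.isMaximal O).ne_top (top_le_iff.1 (h ▸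
      (Ideal.span_singleton_le_iff_mem _).2 ham))
  -- an element outside the ideal is a unit times a power of the second parameter
  have hdec : ∀ x, x ∉ A → ∃ (n : ℕ) (w z : O), IsUnit w ∧ x = b ^ n * w + a * z := by
    intro x hx
    by_contra hno
    push Not at hno
    have hall : ∀ n : ℕ, ∃ w z, x = b ^ n * w + a * z := by
      intro n
      induction n with
      | zero => exact ⟨x, 0, by ring⟩
      | succ n ih =>
        obtain ⟨w, z, hw⟩ := ih
        have hwm : w ∈ IsLocalRing.maximalIdeal O := fun hu => hno n w z hu hw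
        rw [hm] at hwm
        obtain ⟨u₁, u₂, hu⟩ := Ideal.mem_span_pair.1 hwm
        exact ⟨u₂, z + b ^ n * u₁, by rw [hw, ← hu]; ring⟩
    haveI : Nontrivial (O ⧸ A) := Ideal.Quotient.nontrivial_iff.2 hA1
    haveI : IsLocalRing (O ⧸ A) :=
      IsLocalRing.of_surjective' (Ideal.Quotient.mk A) Ideal.Quotient.mk_surjective
    have h0 : Ideal.Quotient.mk A x ∈
        ⨅ i : ℕ, (Ideal.span {Ideal.Quotient.mk A b}) ^ i := by
      refine Ideal.mem_iInf.2 fun n => ?_
      obtain ⟨w, z, hw⟩ := hall n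
      rw [Ideal.span_singleton_pow, Ideal.mem_span_singleton]
      refine ⟨Ideal.Quotient.mk A w, ?_⟩
      rw [hw, map_add, map_mul, map_pow,
        Ideal.Quotient.eq_zero_iff_mem.2 (A.mul_mem_right z (Ideal.mem_span_singleton_self a)),
        add_zero]
    rw [Ideal.iInf_pow_eq_bot_of_isLocalRing _ (fun htop => by
      rw [Ideal.span_singleton_eq_top] at htop
      obtain ⟨y, hy⟩ := htop.exists_right_inv
      obtain ⟨y, rfl⟩ := Ideal.Quotient.mk_surjective y
      rw [← map_mul, ← map_one (Ideal.Quotient.mk A), Ideal.Quotient.eq] at hy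
      refine (IsLocalRing.maximalIdeal.isMaximal O).ne_top ((Ideal.eq_top_iff_one _).2 ?_)
      have := sub_mem (Ideal.mul_mem_right y _ hbm)
        ((Ideal.span_singleton_le_iff_mem _).2 ham hy)
      rwa [sub_sub_cancel] at this), Ideal.mem_bot, Ideal.Quotient.eq_zero_iff_mem] at h0
    exact hx h0
  have hcancel : ∀ (n : ℕ) (y : O), b ^ n * y ∈ A → y ∈ A := by
    intro n
    induction n with
    | zero => intro y hy; rwa [pow_zero, one_mul] at hy
    | succ n ih =>
      intro y hy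
      rw [pow_succ, mul_assoc] at hy
      exact Ideal.mem_span_singleton.2 (hreg y (Ideal.mem_span_singleton.1 (ih _ hy)))
  have haprime : Prime a := by
    rw [← Ideal.span_singleton_prime ha0]
    refine ⟨hA1, fun {x y} hxy => ?_⟩
    by_contra hno
    push Not at hno
    obtain ⟨n, w, z, hw, hx⟩ := hdec x hno.1
    refine hno.2 (hcancel n y ?_)
    have h1 : b ^ n * y * w ∈ A := by
      have : b ^ n * y * w = x * y - a * (z * y) := by rw [hx]; ring
      rw [this]
      exact sub_mem hxy (A.mul_mem_right _ (Ideal.mem_span_singleton_self a))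
    obtain ⟨w', hw'⟩ := hw.exists_right_inv
    have := A.mul_mem_right w' h1
    rwa [mul_assoc, hw', mul_one] at this
  refine UniqueFactorizationMonoid.iff_exists_prime_mem_of_isPrime.2 fun I hI0 hI => ?_
  by_cases haI : a ∈ I
  · exact ⟨a, haI, haprime⟩
  -- the image of the prime is generated by one element
  have hnot : ¬ I ≤ A := fun hle => hI0 (Submodule.eq_bot_of_le_smul_of_le_jacobson_bot
    (IsLocalRing.maximalIdeal O) I (IsNoetherian.noetherian I) (fun x hx => by
      obtain ⟨y, rfl⟩ := Ideal.mem_span_singleton.1 (hle hx)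
      exact Submodule.smul_mem_smul ham ((hI.mem_or_mem hx).resolve_left haI))
    (IsLocalRing.maximalIdeal_le_jacobson _))
  classical
  have hex : ∃ n : ℕ, ∃ x ∈ I, ∃ w z, IsUnit w ∧ x = b ^ n * w + a * z := by
    obtain ⟨x, hxI, hxA⟩ := SetLike.not_le_iff_exists.1 hnot
    obtain ⟨n, w, z, h⟩ := hdec x hxA
    exact ⟨n, x, hxI, w, z, h⟩
  obtain ⟨f, hfI, w, z, hw, hf⟩ := Nat.find_spec hex
  have hle : I ≤ Ideal.span {f} ⊔ IsLocalRing.maximalIdeal O • I := fun x hx => by
    have key : ∃ r, x - r * f ∈ A := by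
      by_cases hxA : x ∈ A
      · exact ⟨0, by rwa [zero_mul, sub_zero]⟩
      obtain ⟨n, w', z', hw', hx'⟩ := hdec x hxA
      have hn : Nat.find hex ≤ n := Nat.find_min' hex ⟨x, hx, w', z', hw', hx'⟩
      obtain ⟨k, rfl⟩ := Nat.exists_eq_add_of_le hn
      obtain ⟨v, hv⟩ := hw.exists_right_inv
      refine ⟨b ^ k * w' * v, Ideal.mem_span_singleton.2 ⟨z' - b ^ k * w' * v * z, ?_⟩⟩
      rw [hx', hf]
      linear_combination -(b ^ Nat.find hex * b ^ k * w') * hv
    obtain ⟨r, hr⟩ := key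
    obtain ⟨y, hy⟩ := Ideal.mem_span_singleton.1 hr
    have hyI : a * y ∈ I := hy ▸ sub_mem hx (I.mul_mem_left r hfI)
    refine Submodule.mem_sup.2 ⟨r * f, Ideal.mul_mem_left _ _ (Ideal.mem_span_singleton_self f),
      a * y, Submodule.smul_mem_smul ham ((hI.mem_or_mem hyI).resolve_left haI), ?_⟩
    rw [← hy]
    ring
  have heq : I = Ideal.span {f} := le_antisymm
    (Submodule.le_of_le_smul_of_le_jacobson_bot (IsNoetherian.noetherian I)
      (IsLocalRing.maximalIdeal_le_jacobson _) hle)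
    ((Ideal.span_singleton_le_iff_mem _).2 hfI)
  refine ⟨f, hfI, (Ideal.span_singleton_prime fun h => hI0 ?_).1 (heq ▸ hI)⟩
  rw [heq, h, Ideal.span_singleton_eq_bot.2 rfl]

end Factorial

end FLTAgent.AV.Param
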